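/-
S26 : common definitions and the CONTRACT structures exchanged between the blocks.
See report #1542 for the blueprint.
-/
import Mathlib
import Fermat.Prelude.Def_JacJ1Iface
import Fermat.Prelude.Def_GoodReductionJacobian_RelativeGroupLawKernel
import Fermat.Prelude.Def_AlgebraicGeometry_RelativePicardFunctor

set_option autoImplicit false

universe u

open CategoryTheory CategoryTheory.Limits AlgebraicGeometry NeronModelInfra GoodReductionJacobian

noncomputable section

namespace Fermat.Agent.S26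

/-- `Spec K` -/
abbrev SpK (K : Type u) [Field K] : Scheme.{u} := Spec (CommRingCat.of K)

/-! ### function fields -/

section FF

variable {T : Scheme.{u}} [IsIntegral T]

/-- the inclusion of a local ring in the function field -/
abbrev toFF (x : T) : T.presheaf.stalk x →+* T.functionField :=
  algebraMap (T.presheaf.stalk x) T.functionField

/-- the rational function `u` is regular at `x` -/
def IsRegAt (x : T) (u : T.functionField) : Prop := ∃ a : T.presheaf.stalk x, toFF x a = u

/-- the rational function `u` is a unit at `x` -/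
def IsUnitAt (x : T) (u : T.functionField) : Prop :=
  ∃ a : T.presheaf.stalk x, IsUnit a ∧ toFF x a = u

end FF

/-- `ψ` is the map of function fields induced by `φ` (so `φ` is dominant). -/
def IsFnMap {X Y : Scheme.{u}} [IsIntegral X] [IsIntegral Y] (φ : X ⟶ Y)
    (ψ : Y.functionField →+* X.functionField) : Prop :=
  ∀ (x : X) (a : Y.presheaf.stalk (φ x)), ψ (toFF (φ x) a) = toFF x ((φ.stalkMap x).hom a)

/-- the constants in the function field of a `K`-scheme -/
def constFF (K : Type u) [Field K] {T : Scheme.{u}} [IsIntegral T] (t : T ⟶ SpK K) :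
    K →+* T.functionField :=
  (T.presheaf.germ ⊤ (genericPoint T) trivial).hom.comp
    (t.appTop.hom.comp (Scheme.ΓSpecIso (CommRingCat.of K)).inv.hom)

/-- the `K`-algebra structure of the function field of a `K`-scheme (NOT an instance:
use `letI := ffAlgebra K t`) -/
abbrev ffAlgebra (K : Type u) [Field K] {T : Scheme.{u}} [IsIntegral T] (t : T ⟶ SpK K) :
    Algebra K T.functionField :=
  (constFF K t).toAlgebra

/-! ### Cartier data -/

/-- Effective Cartier data on an integral scheme: a non-zero local equation `θ x ∈ O_{T,x}` at every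
point, coherent: `θ x` is also a local equation at all `y` near `x`. -/
structure ECD (T : Scheme.{u}) [IsIntegral T] where
  θ : ∀ x : T, T.presheaf.stalk x
  ne : ∀ x, θ x ≠ 0
  coh : ∀ x, ∃ U : T.Opens, x ∈ U ∧ ∀ y ∈ U, IsUnitAt y (toFF x (θ x) / toFF y (θ y))

/-- Fractional Cartier data. -/
structure CD (T : Scheme.{u}) [IsIntegral T] where
  θ : T → T.functionField
  ne : ∀ x, θ x ≠ 0
  coh : ∀ x, ∃ U : T.Opens, x ∈ U ∧ ∀ y ∈ U, IsUnitAt y (θ x / θ y)

/-- `D'` is the pull-back of `D` along `φ` -/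
def ECD.IsPull {T' T : Scheme.{u}} [IsIntegral T'] [IsIntegral T] (φ : T' ⟶ T) (D : ECD T)
    (D' : ECD T') : Prop :=
  ∀ x' : T', D'.θ x' = (φ.stalkMap x').hom (D.θ (φ x'))

/-- principal fractional Cartier data -/
def CD.IsPrincipal {T : Scheme.{u}} [IsIntegral T] (D : CD T) : Prop :=
  ∃ h : T.functionField, h ≠ 0 ∧ ∀ x, IsUnitAt x (h * D.θ x)


theorem IsUnitAt.mul {T : Scheme.{u}} [IsIntegral T] {x : T} {u v : T.functionField}
    (hu : IsUnitAt x u) (hv : IsUnitAt x v) : IsUnitAt x (u * v) := by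
  obtain ⟨a, ha, rfl⟩ := hu
  obtain ⟨b, hb, rfl⟩ := hv
  exact ⟨a * b, ha.mul hb, map_mul _ _ _⟩

theorem IsUnitAt.inv {T : Scheme.{u}} [IsIntegral T] {x : T} {u : T.functionField}
    (hu : IsUnitAt x u) : IsUnitAt x u⁻¹ := by
  obtain ⟨a, ha, rfl⟩ := hu
  obtain ⟨a, rfl⟩ := ha
  refine ⟨(a⁻¹ : (T.presheaf.stalk x)ˣ), Units.isUnit _, ?_⟩
  have h : toFF x (a⁻¹ : (T.presheaf.stalk x)ˣ) * toFF x (a : T.presheaf.stalk x) = 1 := by
    rw [← map_mul, Units.inv_mul, map_one]
  exact eq_inv_of_mul_eq_one_left h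

theorem IsUnitAt.one {T : Scheme.{u}} [IsIntegral T] (x : T) :
    IsUnitAt x (1 : T.functionField) := ⟨1, isUnit_one, map_one _⟩

namespace CD

variable {T : Scheme.{u}} [IsIntegral T]

instance : One (CD T) :=
  ⟨{ θ := fun _ => 1
     ne := fun _ => one_ne_zero
     coh := fun _ => ⟨⊤, trivial, fun y _ => by simpa using IsUnitAt.one y⟩ }⟩

instance : Mul (CD T) :=
  ⟨fun D D' =>
    { θ := fun x => D.θ x * D'.θ x
      ne := fun x => mul_ne_zero (D.ne x) (D'.ne x)
      coh := fun x => by
        obtain ⟨U, hxU, hU⟩ := D.coh x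
        obtain ⟨U', hxU', hU'⟩ := D'.coh x
        refine ⟨U ⊓ U', ⟨hxU, hxU'⟩, fun y hy => ?_⟩
        rw [mul_div_mul_comm]
        exact (hU y hy.1).mul (hU' y hy.2) }⟩

instance : Inv (CD T) :=
  ⟨fun D =>
    { θ := fun x => (D.θ x)⁻¹
      ne := fun x => inv_ne_zero (D.ne x)
      coh := fun x => by
        obtain ⟨U, hxU, hU⟩ := D.coh x
        refine ⟨U, hxU, fun y hy => ?_⟩
        rw [← inv_div_inv, inv_inv, inv_inv, ← inv_div]
        exact (hU y hy).inv }⟩

@[simp] theorem one_θ (x : T) : (1 : CD T).θ x = 1 := rfl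
@[simp] theorem mul_θ (D D' : CD T) (x : T) : (D * D').θ x = D.θ x * D'.θ x := rfl
@[simp] theorem inv_θ (D : CD T) (x : T) : (D⁻¹).θ x = (D.θ x)⁻¹ := rfl

end CD

/-- effective data as fractional data -/
def ECD.toCD {T : Scheme.{u}} [IsIntegral T] (D : ECD T) : CD T where
  θ := fun x => toFF x (D.θ x)
  ne := fun x => by
    intro h
    exact D.ne x ((IsFractionRing.injective (T.presheaf.stalk x) T.functionField)
      (h.trans (map_zero _).symm))
  coh := D.coh

/-! ### the contracts -/

section Contracts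

variable (K : Type u) [Field K] {A : Scheme.{u}} (f : A ⟶ SpK K) (L : RelativeGroupLaw K f)

/-- post-composition of a `T`-point of `C` with a `K`-morphism `γ : C ⟶ A` -/
def compPt {C T : Scheme.{u}} {c : C ⟶ SpK K} {t : T ⟶ SpK K} (p : SchemeHomOver t c)
    (γ : SchemeHomOver c f) : SchemeHomOver t f :=
  ⟨p.1 ≫ γ.1, by rw [Category.assoc, γ.2, p.2]⟩

/-- **Contract M** (provided by block M, consumed by blocks Q and V): a functorial Picard group
with classes of Cartier data and a dictionary with invertible sheaves of modules. -/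
structure PicBase where
  Pic : Scheme.{u} → Type u
  [grp : ∀ T, AddCommGroup (Pic T)]
  pull : ∀ {T' T : Scheme.{u}}, (T' ⟶ T) → Pic T →+ Pic T'
  pull_comp : ∀ {T'' T' T : Scheme.{u}} (ψ : T'' ⟶ T') (φ : T' ⟶ T) (ξ : Pic T),
    pull (ψ ≫ φ) ξ = pull ψ (pull φ ξ)
  pull_id : ∀ {T : Scheme.{u}} (ξ : Pic T), pull (𝟙 T) ξ = ξ
  pic_point : ∀ ξ : Pic (SpK K), ξ = 0
  cl : ∀ {T : Scheme.{u}} [IsIntegral T], CD T → Pic T
  cl_mul : ∀ {T : Scheme.{u}} [IsIntegral T] (D D' : CD T), cl (D * D') = cl D + cl D'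
  cl_inv : ∀ {T : Scheme.{u}} [IsIntegral T] (D : CD T), cl D⁻¹ = - cl D
  isPrincipal_of_cl_eq_zero : ∀ {T : Scheme.{u}} [IsIntegral T] (D : CD T), cl D = 0 →
    D.IsPrincipal
  cl_pull : ∀ {T' T : Scheme.{u}} [IsIntegral T'] [IsIntegral T] (φ : T' ⟶ T) (D : ECD T)
    (D' : ECD T'), ECD.IsPull φ D D' → pull φ (cl D.toCD) = cl D'.toCD
  /-- the sheaf `𝓛` has class `ξ` -/
  Realizes : ∀ {T : Scheme.{u}}, T.Modules → Pic T → Prop
  exists_realizes : ∀ {T : Scheme.{u}} [CompactSpace T] (ξ : Pic T),
    ∃ 𝓛 : T.Modules, Scheme.Modules.IsInvertible 𝓛 ∧ Realizes 𝓛 ξ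
  realizes_pull : ∀ {T' T : Scheme.{u}} (φ : T' ⟶ T) (𝓛 : T.Modules) (ξ : Pic T),
    Realizes 𝓛 ξ → Realizes ((Scheme.Modules.pullback φ).obj 𝓛) (pull φ ξ)
  realizes_unit_iff : ∀ {T : Scheme.{u}} (𝓛 : T.Modules) (ξ : Pic T), Realizes 𝓛 ξ →
    (Nonempty (𝓛 ≅ SheafOfModules.unit T.ringCatSheaf) ↔ ξ = 0)

attribute [instance] PicBase.grp

variable {K} in
/-- the theorem of the cube for points of `A` whose first argument factors through a pointed
smooth proper curve -/
def PicBase.Cube (PB : PicBase K) : Prop :=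
  ∀ {C : Scheme.{u}} (c : C ⟶ SpK K) [IsProper c] [SmoothOfRelativeDimension 1 c]
    [IsIntegral C] (o : SchemeHomOver (𝟙 (SpK K)) c) (γ : SchemeHomOver c f)
    (_ : o.1 ≫ γ.1 = (L.one (𝟙 (SpK K))).1) (ξ : PB.Pic A) {T : Scheme.{u}} (t : T ⟶ SpK K)
    (p : SchemeHomOver t c) (y z : SchemeHomOver t f),
    PB.pull (L.mul t (L.mul t (compPt K f p γ) y) z).1 ξ
      - PB.pull (L.mul t (compPt K f p γ) y).1 ξ
      - PB.pull (L.mul t (compPt K f p γ) z).1 ξ - PB.pull (L.mul t y z).1 ξ
      + PB.pull (compPt K f p γ).1 ξ + PB.pull y.1 ξ + PB.pull z.1 ξ = 0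

/-- **Contract PT** (provided by blocks M + Q, consumed by block V). -/
structure PicTheory extends PicBase K where
  cube : toPicBase.Cube f L


/-- the subgroup-like predicate: `T`-points of `A` which are sums of points factoring through
pointed smooth proper curves -/
inductive CurveGen {T : Scheme.{u}} (t : T ⟶ SpK K) : SchemeHomOver t f → Prop
  | one : CurveGen t (L.one t)
  | mul (x y : SchemeHomOver t f) : CurveGen t x → CurveGen t y → CurveGen t (L.mul t x y)
  | curve {C : Scheme.{u}} (c : C ⟶ SpK K) [IsProper c] [SmoothOfRelativeDimension 1 c]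
      [IsIntegral C] (o : SchemeHomOver (𝟙 (SpK K)) c) (γ : SchemeHomOver c f)
      (_ : o.1 ≫ γ.1 = (L.one (𝟙 (SpK K))).1) (p : SchemeHomOver t c) :
      CurveGen t (compPt K f p γ)

/-- **Contract S** (provided by blocks C + S, consumed by V): a proper integral `X'` with a dominant,
generically finite point `s ∈ A(X')` which is a sum of points factoring through curves. -/
structure CoverData [IsIntegral A] where
  X : Scheme.{u}
  x : X ⟶ SpK K
  [proper : IsProper x]
  [integral : IsIntegral X]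
  s : SchemeHomOver x f
  gen : CurveGen K f L x s
  σ : A.functionField →+* X.functionField
  isFn : IsFnMap s.1 σ
  finite : σ.Finite

attribute [instance] CoverData.proper CoverData.integral

/-- **Contract E** (provided by block E, consumed by V and the top): multiplication by `n`. -/
structure IsogData [IsIntegral A] (n : ℕ) where
  ψ : A.functionField →+* A.functionField
  isFn : IsFnMap (L.schemeNsmul n) ψ
  finite : ψ.Finite
  card : Nat.card {x : SchemeHomOver (𝟙 (SpK K)) f // L.IsTorsionPoint (𝟙 (SpK K)) n x} =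
    Module.finrank ψ.fieldRange A.functionField

/-- **Contract F** (provided by block F, consumed by V): effective Cartier data `D` on `A` and
finitely many rational functions `r j ∈ L(D)` generating the function field. -/
structure PolarData [IsIntegral A] where
  D : ECD A
  N : ℕ
  r : Fin N → A.functionField
  reg : ∀ (x : A) (j : Fin N), IsRegAt x (r j * toFF x (D.θ x))
  gen : letI := ffAlgebra K f
    IntermediateField.adjoin K (Set.range r) = ⊤

end Contracts

end Fermat.Agent.S26
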