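/-
S26 : the top assembly (contracts of the blocks ⟹ the frozen statement).
-/
import Fermat.Agent.S26.B.Defs
import Fermat.Agent.S26.G.Main
import Fermat.Agent.S26.P.Main
import Fermat.Agent.S26.E.Main
import Fermat.Agent.S26.F.Main
import Fermat.Agent.S26.S.Main
import Fermat.Agent.S26.Q.Main
import Fermat.Agent.S26.V.Main

set_option autoImplicit false

universe u

open CategoryTheory CategoryTheory.Limits AlgebraicGeometry NeronModelInfra GoodReductionJacobian

namespace Fermat.Agent.S26

theorem topB (K : Type u) [Field K] [IsAlgClosed K] {A : Scheme.{u}}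
    (f : A ⟶ Spec (CommRingCat.of K))
    (L : RelativeGroupLaw K f) (hc : L.IsCommutative) (hA : AbelianSchemePropertyBundle K f)
    (g : ℕ) [SmoothOfRelativeDimension g f] (n : ℕ) (hn : (n : K) ≠ 0) :
    Nat.card {x : SchemeHomOver (𝟙 (Spec (CommRingCat.of K))) f //
        L.IsTorsionPoint (𝟙 (Spec (CommRingCat.of K))) n x} = n ^ (2 * g) := by
  have hn0 : 0 < n := Nat.pos_of_ne_zero (by rintro rfl; simp at hn)
  haveI : IsIntegral A := P.isIntegral L hA
  haveI : Smooth f := hA.smooth
  haveI : IsProper f := hA.proper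
  obtain ⟨I⟩ := E.nonempty_isogData f L hc hA g n hn
  obtain ⟨PD⟩ := F.nonempty_polarData f
  obtain ⟨X⟩ := S.nonempty_coverData f L hc hA g
  obtain ⟨PT⟩ := Q.nonempty_picTheory f L hc hA
  letI := ffAlgebra K f
  letI := ffAlgebra K X.x
  obtain ⟨y, hy⟩ := P.exists_isTranscendenceBasis (f := f) g
  obtain ⟨V, hVfd, hVgen, hV⟩ := V.exists_system f L hc hA PT X PD n hn0 I
  let σ : A.functionField →ₐ[K] X.X.functionField :=
    { X.σ with commutes' := fun a => P.isFnMap_constFF X.x f X.s.1 X.s.2 X.σ X.isFn a }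
  let ψ : A.functionField →ₐ[K] A.functionField :=
    { I.ψ with
      commutes' := fun a => P.isFnMap_constFF f f _ (L.schemeNsmul_over n) I.ψ I.isFn a }
  have hfin : FiniteDimensional ψ.fieldRange A.functionField :=
    P.finiteDimensional_fieldRange ψ I.finite
  rw [I.card]
  exact G.finrank_eq_pow g n hn0 y hy σ ψ hfin V hVfd hVgen hV

end Fermat.Agent.S26
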